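/-
S52 library, block FAM (lead): the family in homogeneous form (binary forms in `(t, u)`; `t/u` is the
parameter, `u = 0` is the point at infinity where the fibre is the base curve `y² = x³ + 3h x + 2s`).
-/
import Fermat.Agent.S52lib.Fam

set_option autoImplicit false
set_option maxHeartbeats 4000000
set_option maxRecDepth 100000

namespace Fermat.Agent.S52lib.Fam

variable {R : Type*} [CommRing R]

/-- the binary form of degree 12 in `(t, u)` with `dlH h s t 1 = dl h s t`. -/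
def dlH (h s t u : R) : R :=
    t ^ 12 + 66 * h * t ^ 10 * u ^ 2 - 440 * s * t ^ 9 * u ^ 3 - 1485 * h ^ 2 * t ^ 8 * u ^ 4
    + 3168 * h * s * t ^ 7 * u ^ 5 - 5940 * h ^ 3 * t ^ 6 * u ^ 6 - 10560 * s ^ 2 * t ^ 6 * u ^ 6
    - 4752 * h ^ 2 * s * t ^ 5 * u ^ 7 - 66825 * h ^ 4 * t ^ 4 * u ^ 8
    - 63360 * h * s ^ 2 * t ^ 4 * u ^ 8 + 142560 * h ^ 3 * s * t ^ 3 * u ^ 9
    + 140800 * s ^ 3 * t ^ 3 * u ^ 9 + 133650 * h ^ 5 * t ^ 2 * u ^ 10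
    + 133056 * h ^ 2 * s ^ 2 * t ^ 2 * u ^ 10 - 61560 * h ^ 4 * s * t * u ^ 11
    - 61440 * h * s ^ 3 * t * u ^ 11 + 91125 * h ^ 6 * u ^ 12 + 193536 * h ^ 3 * s ^ 2 * u ^ 12
    + 102400 * s ^ 4 * u ^ 12

/-- the binary form of degree 20 in `(t, u)` with `HpH h s t 1 = Hp h s t`. -/
def HpH (h s t u : R) : R :=
    h * t ^ 20 - 20 * s * t ^ 19 * u - 190 * h ^ 2 * t ^ 18 * u ^ 2
    + 1140 * h * s * t ^ 17 * u ^ 3 - 855 * h ^ 3 * t ^ 16 * u ^ 4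
    - 5700 * s ^ 2 * t ^ 16 * u ^ 4 - 15504 * h ^ 2 * s * t ^ 15 * u ^ 5
    - 102600 * h ^ 4 * t ^ 14 * u ^ 6 - 63840 * h * s ^ 2 * t ^ 14 * u ^ 6
    + 259920 * h ^ 3 * s * t ^ 13 * u ^ 7 + 182400 * s ^ 3 * t ^ 13 * u ^ 7
    - 1000350 * h ^ 5 * t ^ 12 * u ^ 8 - 1126320 * h ^ 2 * s ^ 2 * t ^ 12 * u ^ 8
    + 7736040 * h ^ 4 * s * t ^ 11 * u ^ 9 + 7904000 * h * s ^ 3 * t ^ 11 * u ^ 9
    + 10003500 * h ^ 6 * t ^ 10 * u ^ 10 - 5619744 * h ^ 3 * s ^ 2 * t ^ 10 * u ^ 10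
    - 15808000 * s ^ 4 * t ^ 10 * u ^ 10 - 54685800 * h ^ 5 * s * t ^ 9 * u ^ 11
    - 54853760 * h ^ 2 * s ^ 3 * t ^ 9 * u ^ 11 - 45015750 * h ^ 7 * t ^ 8 * u ^ 12
    - 7202520 * h ^ 4 * s ^ 2 * t ^ 8 * u ^ 12 + 37939200 * h * s ^ 4 * t ^ 8 * u ^ 12
    + 35089200 * h ^ 6 * s * t ^ 7 * u ^ 13 - 23201280 * h ^ 3 * s ^ 3 * t ^ 7 * u ^ 13
    - 58368000 * s ^ 5 * t ^ 7 * u ^ 13 - 207765000 * h ^ 8 * t ^ 6 * u ^ 14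
    - 495188640 * h ^ 5 * s ^ 2 * t ^ 6 * u ^ 14 - 287462400 * h ^ 2 * s ^ 4 * t ^ 6 * u ^ 14
    + 415530000 * h ^ 7 * s * t ^ 5 * u ^ 15 + 882458496 * h ^ 4 * s ^ 3 * t ^ 5 * u ^ 15
    + 466944000 * h * s ^ 5 * t ^ 5 * u ^ 15 - 77911875 * h ^ 9 * t ^ 4 * u ^ 16
    - 714711600 * h ^ 6 * s ^ 2 * t ^ 4 * u ^ 16 - 1220474880 * h ^ 3 * s ^ 4 * t ^ 4 * u ^ 16
    - 583680000 * s ^ 6 * t ^ 4 * u ^ 16 - 353200500 * h ^ 8 * s * t ^ 3 * u ^ 17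
    - 715080960 * h ^ 5 * s ^ 3 * t ^ 3 * u ^ 17 - 361881600 * h ^ 2 * s ^ 5 * t ^ 3 * u ^ 17
    - 779118750 * h ^ 10 * t ^ 2 * u ^ 18 - 2182917600 * h ^ 7 * s ^ 2 * t ^ 2 * u ^ 18
    - 2026391040 * h ^ 4 * s ^ 4 * t ^ 2 * u ^ 18 - 622592000 * h * s ^ 6 * t ^ 2 * u ^ 18
    + 694372500 * h ^ 9 * s * t * u ^ 19 + 2044414080 * h ^ 6 * s ^ 3 * t * u ^ 19
    + 2005401600 * h ^ 3 * s ^ 5 * t * u ^ 19 + 655360000 * s ^ 7 * t * u ^ 19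
    + 184528125 * h ^ 11 * u ^ 20 + 549301500 * h ^ 8 * s ^ 2 * u ^ 20
    + 544997376 * h ^ 5 * s ^ 4 * u ^ 20 + 180224000 * h ^ 2 * s ^ 6 * u ^ 20

/-- the binary form of degree 30 in `(t, u)` with `TpH h s t 1 = Tp h s t`. -/
def TpH (h s t u : R) : R :=
    s * t ^ 30 + 30 * h ^ 2 * t ^ 29 * u - 435 * h * s * t ^ 28 * u ^ 2
    - 1160 * h ^ 3 * t ^ 27 * u ^ 3 + 2900 * s ^ 2 * t ^ 27 * u ^ 3
    + 27405 * h ^ 2 * s * t ^ 26 * u ^ 4 + 95526 * h ^ 4 * t ^ 25 * u ^ 5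
    - 46980 * h * s ^ 2 * t ^ 25 * u ^ 5 - 437175 * h ^ 3 * s * t ^ 24 * u ^ 6
    + 156600 * s ^ 3 * t ^ 24 * u ^ 6 + 1879200 * h ^ 5 * t ^ 23 * u ^ 7
    + 3915000 * h ^ 2 * s ^ 2 * t ^ 23 * u ^ 7 - 8554275 * h ^ 4 * s * t ^ 22 * u ^ 8
    - 14407200 * h * s ^ 3 * t ^ 22 * u ^ 8 + 24312150 * h ^ 6 * t ^ 21 * u ^ 9
    + 42021000 * h ^ 3 * s ^ 2 * t ^ 21 * u ^ 9 + 32016000 * s ^ 4 * t ^ 21 * u ^ 9
    - 246633255 * h ^ 5 * s * t ^ 20 * u ^ 10 - 216588240 * h ^ 2 * s ^ 3 * t ^ 20 * u ^ 10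
    - 162081000 * h ^ 7 * t ^ 19 * u ^ 11 + 1352475900 * h ^ 4 * s ^ 2 * t ^ 19 * u ^ 11
    + 1459929600 * h * s ^ 4 * t ^ 19 * u ^ 11 + 4131714825 * h ^ 6 * s * t ^ 18 * u ^ 12
    + 1612005600 * h ^ 3 * s ^ 3 * t ^ 18 * u ^ 12 - 2433216000 * s ^ 5 * t ^ 18 * u ^ 12
    + 6928962750 * h ^ 8 * t ^ 17 * u ^ 13 - 5235216300 * h ^ 5 * s ^ 2 * t ^ 17 * u ^ 13
    - 12044419200 * h ^ 2 * s ^ 4 * t ^ 17 * u ^ 13 - 43190534475 * h ^ 7 * s * t ^ 16 * u ^ 14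
    - 43045111800 * h ^ 4 * s ^ 3 * t ^ 16 * u ^ 14
    + 79575287760 * h ^ 6 * s ^ 2 * t ^ 15 * u ^ 15
    + 79420170240 * h ^ 3 * s ^ 4 * t ^ 15 * u ^ 15 - 176688550125 * h ^ 8 * s * t ^ 14 * u ^ 16
    - 474659611200 * h ^ 5 * s ^ 3 * t ^ 14 * u ^ 16
    - 297825638400 * h ^ 2 * s ^ 5 * t ^ 14 * u ^ 16 - 311803323750 * h ^ 10 * t ^ 13 * u ^ 17
    - 77604382800 * h ^ 7 * s ^ 2 * t ^ 13 * u ^ 17
    + 935084908800 * h ^ 4 * s ^ 4 * t ^ 13 * u ^ 17 + 700766208000 * h * s ^ 6 * t ^ 13 * u ^ 17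
    + 1694131392375 * h ^ 9 * s * t ^ 12 * u ^ 18
    + 2776512362400 * h ^ 6 * s ^ 3 * t ^ 12 * u ^ 18
    + 303665356800 * h ^ 3 * s ^ 5 * t ^ 12 * u ^ 18 - 778629120000 * s ^ 7 * t ^ 12 * u ^ 18
    + 328214025000 * h ^ 11 * t ^ 11 * u ^ 19 - 3481840250100 * h ^ 8 * s ^ 2 * t ^ 11 * u ^ 19
    - 8100765158400 * h ^ 5 * s ^ 4 * t ^ 11 * u ^ 19
    - 4290656256000 * h ^ 2 * s ^ 6 * t ^ 11 * u ^ 19
    - 2874607835625 * h ^ 10 * s * t ^ 10 * u ^ 20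
    - 2424887357760 * h ^ 7 * s ^ 3 * t ^ 10 * u ^ 20
    + 3892110842880 * h ^ 4 * s ^ 5 * t ^ 10 * u ^ 20
    + 3442360320000 * h * s ^ 7 * t ^ 10 * u ^ 20 - 2215444668750 * h ^ 12 * t ^ 9 * u ^ 21
    - 3077188825500 * h ^ 9 * s ^ 2 * t ^ 9 * u ^ 21
    - 2709129888000 * h ^ 6 * s ^ 4 * t ^ 9 * u ^ 21
    - 5125838438400 * h ^ 3 * s ^ 6 * t ^ 9 * u ^ 21 - 3278438400000 * s ^ 8 * t ^ 9 * u ^ 21
    + 1403114956875 * h ^ 11 * s * t ^ 8 * u ^ 22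
    - 1724509423800 * h ^ 8 * s ^ 3 * t ^ 8 * u ^ 22
    - 7701051801600 * h ^ 5 * s ^ 5 * t ^ 8 * u ^ 22
    - 4573421568000 * h ^ 2 * s ^ 7 * t ^ 8 * u ^ 22 - 7705894500000 * h ^ 13 * t ^ 7 * u ^ 23
    - 33414470973000 * h ^ 10 * s ^ 2 * t ^ 7 * u ^ 23
    - 49888700928000 * h ^ 7 * s ^ 4 * t ^ 7 * u ^ 23
    - 30337884979200 * h ^ 4 * s ^ 6 * t ^ 7 * u ^ 23
    - 6157762560000 * h * s ^ 8 * t ^ 7 * u ^ 23 + 5089101159375 * h ^ 12 * s * t ^ 6 * u ^ 24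
    + 22687218914400 * h ^ 9 * s ^ 3 * t ^ 6 * u ^ 24
    + 35246094796800 * h ^ 6 * s ^ 5 * t ^ 6 * u ^ 24
    + 22779445248000 * h ^ 3 * s ^ 7 * t ^ 6 * u ^ 24 + 5131468800000 * s ^ 9 * t ^ 6 * u ^ 24
    - 17627233668750 * h ^ 14 * t ^ 5 * u ^ 25 - 70097953635000 * h ^ 11 * s ^ 2 * t ^ 5 * u ^ 25
    - 105528606261120 * h ^ 8 * s ^ 4 * t ^ 5 * u ^ 25
    - 71274600677376 * h ^ 5 * s ^ 6 * t ^ 5 * u ^ 25
    - 18216714240000 * h ^ 2 * s ^ 8 * t ^ 5 * u ^ 25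
    + 40985726371875 * h ^ 13 * s * t ^ 4 * u ^ 26
    + 163672057566000 * h ^ 10 * s ^ 3 * t ^ 4 * u ^ 26
    + 245438120632320 * h ^ 7 * s ^ 5 * t ^ 4 * u ^ 26
    + 163803539865600 * h ^ 4 * s ^ 7 * t ^ 4 * u ^ 26
    + 41051750400000 * h * s ^ 9 * t ^ 4 * u ^ 26 + 9632368125000 * h ^ 15 * t ^ 3 * u ^ 27
    + 8104032382500 * h ^ 12 * s ^ 2 * t ^ 3 * u ^ 27
    - 63806176396800 * h ^ 9 * s ^ 4 * t ^ 3 * u ^ 27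
    - 143803576074240 * h ^ 6 * s ^ 6 * t ^ 3 * u ^ 27
    - 111934439424000 * h ^ 3 * s ^ 8 * t ^ 3 * u ^ 27 - 30408704000000 * s ^ 10 * t ^ 3 * u ^ 27
    - 21432019078125 * h ^ 14 * s * t ^ 2 * u ^ 28
    - 85719228804000 * h ^ 11 * s ^ 3 * t ^ 2 * u ^ 28
    - 128580522647040 * h ^ 8 * s ^ 5 * t ^ 2 * u ^ 28
    - 85731449241600 * h ^ 5 * s ^ 7 * t ^ 2 * u ^ 28
    - 21438136320000 * h ^ 2 * s ^ 9 * t ^ 2 * u ^ 28 - 11210083593750 * h ^ 16 * t * u ^ 29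
    - 49873523512500 * h ^ 13 * s ^ 2 * t * u ^ 29 - 87394892457600 * h ^ 10 * s ^ 4 * t * u ^ 29
    - 75042714746880 * h ^ 7 * s ^ 6 * t * u ^ 29 - 31344427008000 * h ^ 4 * s ^ 8 * t * u ^ 29
    - 5033164800000 * h * s ^ 10 * t * u ^ 29 + 4110363984375 * h ^ 15 * s * u ^ 30
    + 19796866155000 * h ^ 12 * s ^ 3 * u ^ 30 + 38083944628224 * h ^ 9 * s ^ 5 * u ^ 30
    + 36574189977600 * h ^ 6 * s ^ 7 * u ^ 30 + 17532190720000 * h ^ 3 * s ^ 9 * u ^ 30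
    + 3355443200000 * s ^ 11 * u ^ 30

theorem dlH_one (h s t : R) : dlH h s t 1 = dl h s t := by
  simp only [dlH, dl, one_pow, mul_one]

theorem dlH_smul (h s t u l : R) : dlH h s (l * t) (l * u) = l ^ 12 * dlH h s t u := by
  unfold dlH
  ring

theorem HpH_one (h s t : R) : HpH h s t 1 = Hp h s t := by
  simp only [HpH, Hp, one_pow, mul_one]

theorem HpH_smul (h s t u l : R) : HpH h s (l * t) (l * u) = l ^ 20 * HpH h s t u := by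
  unfold HpH
  ring

theorem TpH_one (h s t : R) : TpH h s t 1 = Tp h s t := by
  simp only [TpH, Tp, one_pow, mul_one]

theorem TpH_smul (h s t u l : R) : TpH h s (l * t) (l * u) = l ^ 30 * TpH h s t u := by
  unfold TpH
  ring

theorem dlH_one_zero (h s : R) : dlH h s 1 0 = 1 := by
  simp [dlH]

theorem HpH_one_zero (h s : R) : HpH h s 1 0 = h := by
  simp [HpH]

theorem TpH_one_zero (h s : R) : TpH h s 1 0 = s := by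
  simp [TpH]

/-- values at the parameter `t` from the chart at infinity `u = 1/t`. -/
theorem dl_eq_of_mul_eq_one (h s : R) {t u : R} (htu : t * u = 1) : dl h s t = t ^ 12 * dlH h s 1 u := by
  rw [← dlH_smul, mul_one, htu, dlH_one]

theorem Hp_eq_of_mul_eq_one (h s : R) {t u : R} (htu : t * u = 1) : Hp h s t = t ^ 20 * HpH h s 1 u := by
  rw [← HpH_smul, mul_one, htu, HpH_one]

theorem Tp_eq_of_mul_eq_one (h s : R) {t u : R} (htu : t * u = 1) : Tp h s t = t ^ 30 * TpH h s 1 u := by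
  rw [← TpH_smul, mul_one, htu, TpH_one]

/-- homogeneous syzygy. -/
theorem syzygyH (h s t u : R) :
    TpH h s t u ^ 2 + HpH h s t u ^ 3 = (s ^ 2 + h ^ 3) * dlH h s t u ^ 5 := by
  unfold TpH HpH dlH
  ring

end Fermat.Agent.S52lib.Fam
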