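/-
S52 library, block FAM (lead): the curves of the family and their invariants.
`curve h s t : y² = x³ + 3·Hp(h,s,t)·x + 2·Tp(h,s,t)`, `base h s : y² = x³ + 3h x + 2s` (the fibre at `t = ∞`),
`curveInf h s u` (the chart at infinity, `u = 1/t`, `curveInf h s 0 = base h s`).
`Δ(curve) = -1728·(s² + h³)·dl⁵`, `c₄ = -144·Hp`, `c₆ = -1728·Tp`; `dl` is monic of degree 12 in `t`;
`dl = 0 → Hp ≠ 0` when `s² + h³ ≠ 0` (characteristic 0), i.e. all bad fibres are multiplicative with
`v(Δ) = 5·v(dl)`.
-/
import Fermat.Agent.S52lib.FamH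

set_option autoImplicit false
set_option maxHeartbeats 4000000
set_option maxRecDepth 100000

namespace Fermat.Agent.S52lib.Fam

open Polynomial

section maps

variable {R S : Type*} [CommRing R] [CommRing S]

theorem map_dl (φ : R →+* S) (h s t : R) : φ (dl h s t) = dl (φ h) (φ s) (φ t) := by
  simp only [dl, map_add, map_sub, map_mul, map_pow, map_ofNat]

theorem map_Hp (φ : R →+* S) (h s t : R) : φ (Hp h s t) = Hp (φ h) (φ s) (φ t) := by
  simp only [Hp, map_add, map_sub, map_mul, map_pow, map_ofNat]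

theorem map_Tp (φ : R →+* S) (h s t : R) : φ (Tp h s t) = Tp (φ h) (φ s) (φ t) := by
  simp only [Tp, map_add, map_sub, map_mul, map_pow, map_ofNat]

theorem map_dlH (φ : R →+* S) (h s t u : R) : φ (dlH h s t u) = dlH (φ h) (φ s) (φ t) (φ u) := by
  simp only [dlH, map_add, map_sub, map_mul, map_pow, map_ofNat]

theorem map_HpH (φ : R →+* S) (h s t u : R) : φ (HpH h s t u) = HpH (φ h) (φ s) (φ t) (φ u) := by
  simp only [HpH, map_add, map_sub, map_mul, map_pow, map_ofNat]

theorem map_TpH (φ : R →+* S) (h s t u : R) : φ (TpH h s t u) = TpH (φ h) (φ s) (φ t) (φ u) := by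
  simp only [TpH, map_add, map_sub, map_mul, map_pow, map_ofNat]

end maps

section curves

variable {R : Type*} [CommRing R]

/-- the member of the family at the parameter `t`. -/
def curve (h s t : R) : WeierstrassCurve R := ⟨0, 0, 0, 3 * Hp h s t, 2 * Tp h s t⟩

/-- the base curve `y² = x³ + 3h x + 2s` (`= y² = x³ + a x + b` with `h = a/3`, `s = b/2`). -/
def base (h s : R) : WeierstrassCurve R := ⟨0, 0, 0, 3 * h, 2 * s⟩

/-- the chart at infinity (`u = 1/t`). -/
def curveInf (h s u : R) : WeierstrassCurve R := ⟨0, 0, 0, 3 * HpH h s 1 u, 2 * TpH h s 1 u⟩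

theorem curveInf_zero (h s : R) : curveInf h s 0 = base h s := by
  simp only [curveInf, base, HpH_one_zero, TpH_one_zero]

theorem curve_c₄ (h s t : R) : (curve h s t).c₄ = -144 * Hp h s t := by
  simp only [curve, WeierstrassCurve.c₄, WeierstrassCurve.b₂, WeierstrassCurve.b₄]; ring

theorem curve_c₆ (h s t : R) : (curve h s t).c₆ = -1728 * Tp h s t := by
  simp only [curve, WeierstrassCurve.c₆, WeierstrassCurve.b₂, WeierstrassCurve.b₄,
    WeierstrassCurve.b₆]; ring

theorem curve_Δ (h s t : R) : (curve h s t).Δ = -1728 * ((s ^ 2 + h ^ 3) * dl h s t ^ 5) := by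
  rw [← syzygy]
  simp only [curve, WeierstrassCurve.Δ, WeierstrassCurve.b₂, WeierstrassCurve.b₄,
    WeierstrassCurve.b₆, WeierstrassCurve.b₈]; ring

theorem curveInf_c₄ (h s u : R) : (curveInf h s u).c₄ = -144 * HpH h s 1 u := by
  simp only [curveInf, WeierstrassCurve.c₄, WeierstrassCurve.b₂, WeierstrassCurve.b₄]; ring

theorem curveInf_c₆ (h s u : R) : (curveInf h s u).c₆ = -1728 * TpH h s 1 u := by
  simp only [curveInf, WeierstrassCurve.c₆, WeierstrassCurve.b₂, WeierstrassCurve.b₄,
    WeierstrassCurve.b₆]; ring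

theorem curveInf_Δ (h s u : R) :
    (curveInf h s u).Δ = -1728 * ((s ^ 2 + h ^ 3) * dlH h s 1 u ^ 5) := by
  rw [← syzygyH]
  simp only [curveInf, WeierstrassCurve.Δ, WeierstrassCurve.b₂, WeierstrassCurve.b₄,
    WeierstrassCurve.b₆, WeierstrassCurve.b₈]; ring

theorem base_c₄ (h s : R) : (base h s).c₄ = -144 * h := by
  simp only [base, WeierstrassCurve.c₄, WeierstrassCurve.b₂, WeierstrassCurve.b₄]; ring

theorem base_c₆ (h s : R) : (base h s).c₆ = -1728 * s := by
  simp only [base, WeierstrassCurve.c₆, WeierstrassCurve.b₂, WeierstrassCurve.b₄,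
    WeierstrassCurve.b₆]; ring

theorem base_Δ (h s : R) : (base h s).Δ = -1728 * (s ^ 2 + h ^ 3) := by
  simp only [base, WeierstrassCurve.Δ, WeierstrassCurve.b₂, WeierstrassCurve.b₄,
    WeierstrassCurve.b₆, WeierstrassCurve.b₈]; ring

/-- for `t·u = 1` the fibre at `t` is the fibre of the chart at infinity at `u`, rescaled by `t⁵`:
`a₄(curve t) = t²⁰·a₄(curveInf u)`, `a₆(curve t) = t³⁰·a₆(curveInf u)`. -/
theorem curve_a₄_of_mul_eq_one (h s : R) {t u : R} (htu : t * u = 1) :
    (curve h s t).a₄ = t ^ 20 * (curveInf h s u).a₄ := by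
  simp only [curve, curveInf, Hp_eq_of_mul_eq_one h s htu]; ring

theorem curve_a₆_of_mul_eq_one (h s : R) {t u : R} (htu : t * u = 1) :
    (curve h s t).a₆ = t ^ 30 * (curveInf h s u).a₆ := by
  simp only [curve, curveInf, Tp_eq_of_mul_eq_one h s htu]; ring

theorem map_curve {S : Type*} [CommRing S] (φ : R →+* S) (h s t : R) :
    (curve h s t).map φ = curve (φ h) (φ s) (φ t) := by
  ext <;> simp [curve, WeierstrassCurve.map, map_Hp, map_Tp, map_ofNat]

theorem map_base {S : Type*} [CommRing S] (φ : R →+* S) (h s : R) :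
    (base h s).map φ = base (φ h) (φ s) := by
  ext <;> simp [base, WeierstrassCurve.map, map_ofNat]

theorem map_curveInf {S : Type*} [CommRing S] (φ : R →+* S) (h s u : R) :
    (curveInf h s u).map φ = curveInf (φ h) (φ s) (φ u) := by
  ext <;> simp [curveInf, WeierstrassCurve.map, map_HpH, map_TpH, map_ofNat]

end curves

section field

variable {K : Type*} [Field K]

/-- `dl`, as a polynomial in `t`, is monic of degree 12. -/
theorem dl_monic (h s : K) : (dl (C h) (C s) (X : K[X])).Monic := by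
  unfold dl
  monicity!

theorem dl_natDegree (h s : K) : (dl (C h) (C s) (X : K[X])).natDegree = 12 := by
  unfold dl
  compute_degree!

theorem eval_dl (h s t : K) : (dl (C h) (C s) (X : K[X])).eval t = dl h s t := by
  have := map_dl (Polynomial.evalRingHom t) (C h) (C s) (X : K[X])
  simpa using this

theorem eval_Hp (h s t : K) : (Hp (C h) (C s) (X : K[X])).eval t = Hp h s t := by
  have := map_Hp (Polynomial.evalRingHom t) (C h) (C s) (X : K[X])
  simpa using this

theorem eval_Tp (h s t : K) : (Tp (C h) (C s) (X : K[X])).eval t = Tp h s t := by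
  have := map_Tp (Polynomial.evalRingHom t) (C h) (C s) (X : K[X])
  simpa using this

theorem Hp_natDegree_le (h s : K) : (Hp (C h) (C s) (X : K[X])).natDegree ≤ 20 := by
  unfold Hp
  compute_degree

theorem Tp_natDegree_le (h s : K) : (Tp (C h) (C s) (X : K[X])).natDegree ≤ 30 := by
  unfold Tp
  compute_degree

/-- **No additive fibres.** In characteristic 0, if `s² + h³ ≠ 0` (the base curve is nonsingular), then
`dl` and `Hp` have no common zero: at the zeros of `dl` the fibre has `c₄ ≠ 0`. -/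
theorem Hp_ne_zero_of_dl_eq_zero [CharZero K] {h s t : K} (hD : s ^ 2 + h ^ 3 ≠ 0)
    (hdl : dl h s t = 0) : Hp h s t ≠ 0 := by
  intro hH
  have hT : Tp h s t = 0 := by
    have := syzygy h s t
    rw [hH, hdl] at this
    have h2 : Tp h s t ^ 2 = 0 := by simpa using this
    exact pow_eq_zero_iff (two_ne_zero) |>.mp h2
  have hb := bezout h s t
  rw [hH, hT, hdl] at hb
  have hN : ((bzN : ℕ) : K) ≠ 0 := by
    have : (bzN : ℕ) ≠ 0 := by unfold bzN; norm_num
    exact_mod_cast this
  have : ((bzN : ℕ) : K) * (s ^ 2 + h ^ 3) ^ 6 ≠ 0 := mul_ne_zero hN (pow_ne_zero _ hD)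
  apply this
  simpa using hb.symm

end field

end Fermat.Agent.S52lib.Fam
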