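/-
S52 library, FINAL ASSEMBLY (helper4): the 3–5 switch from the block statements
(lead's cut #lead-89: lead's family `Fam`, chart `curveInf h s u` at `u = 1/t`, base curve at `u = 0`,
target fibre at an integer `u₁`; `h = -9 c₄(W)`, `s = -27 c₆(W)`).

Blocks (each a `Prop`, discharged by its owner):
* `ModelStatement`  (K5, `Semi/` + `Transfer/`): the semistable integral model `W'` of the fibre `u₁`
  for `u₁ ≡ 0` modulo a modulus `M₀`, with the changes of variables to the family;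
* `ThetaStatement`  (K4, `Theta/`): `base[5] ↪ curveInf(u₁)[5]`, additive and `G_ℚ`-equivariant;
* `RedFiveStatement` (K7, `Glue/`): a prime `r ≡ 4 mod 15` outside a given finite set with a
  rational point of order `5` on the base curve modulo `r`;
* `Cusp5Statement`  (K6, `Cusp5/`): over `ZMod r`, `r ≡ 4 mod 5`, a point of order `5` on the base
  curve gives a rational cusp `ū₀` of the family with non-split tangent directions;
* `Irr3.QuadCharThree` (K8, `QuadChar/`).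
The CRT choice of `u₁` and all the bookkeeping are done here.
-/
import Mathlib
import Fermat.Statements.S52
import Fermat.Agent.S51lib.Transfer
import Fermat.Agent.S52lib.FamCurve
import Fermat.Agent.S52lib.Cong.Basic
import Fermat.Agent.S52lib.Irr3.Main

set_option autoImplicit false
set_option linter.unusedSectionVars false
set_option linter.style.haveILetI false

noncomputable section

namespace Fermat.Agent.S52lib

open WeierstrassCurve WeierstrassCurve.Affine WeierstrassCurve.Affine.Point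
open Fermat.Agent.S58lib.Tate Fermat.Agent.S52lib.Fam

/-- the parameter `h = -9 c₄` of the base curve of an integral model. -/
def hOf (W : WeierstrassCurve ℤ) : ℤ := -9 * W.c₄

/-- the parameter `s = -27 c₆` of the base curve of an integral model. -/
def sOf (W : WeierstrassCurve ℤ) : ℤ := -27 * W.c₆

lemma sOf_sq_add_hOf_cube (W : WeierstrassCurve ℤ) :
    sOf W ^ 2 + hOf W ^ 3 = -(729 * 1728) * W.Δ := by
  have h2 : (1728 : ℤ) * W.Δ = W.c₄ ^ 3 - W.c₆ ^ 2 := W.c_relation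
  unfold sOf hOf
  linear_combination (729 : ℤ) * h2

/-- the properties of a point map consumed by `Cong.apOfModel_sub_dvd_of_pointMap`. -/
def IsTorsionEmbedding (p : ℕ) (E₁ E₂ : WeierstrassCurve ℚ) (θ : Pts E₁ → Pts E₂) : Prop :=
  (∀ x y : Pts E₁, p • x = 0 → p • y = 0 → θ (x + y) = θ x + θ y) ∧
  (∀ x : Pts E₁, p • x = 0 → p • θ x = 0) ∧
  (∀ x : Pts E₁, p • x = 0 → θ x = 0 → x = 0) ∧
  (∀ (σ : GQ) (x : Pts E₁), p • x = 0 → θ (σ • x) = σ • θ x)

/-- **Block K5 (+ Transfer)**: there is a modulus `M₀` (divisible by `2, 3, 5, 127` and the bad primes)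
such that for every integer `u₁ ≡ 0 mod M₀` the fibre `curveInf h s u₁` has a semistable integral
model `W'` with the stated invariants; `W_ℚ` and `W'_ℚ` are linked to the family by changes of
variables. -/
def ModelStatement : Prop :=
  ∀ (W : WeierstrassCurve ℤ), W.Δ ≠ 0 → W.IsSemistableModel →
    ∃ M₀ : ℤ, M₀ ≠ 0 ∧ (6 * W.Δ ∣ M₀) ∧
      (∃ C₀ : VariableChange ℚ,
        C₀ • (W.map (Int.castRingHom ℚ)) = base ((hOf W : ℤ) : ℚ) ((sOf W : ℤ) : ℚ)) ∧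
      ∀ u₁ : ℤ, M₀ ∣ u₁ →
        ∃ W' : WeierstrassCurve ℤ,
          9 * W'.c₄ = -HpH (hOf W) (sOf W) 1 u₁ ∧ 27 * W'.c₆ = -TpH (hOf W) (sOf W) 1 u₁ ∧
          W'.Δ = W.Δ * dlH (hOf W) (sOf W) 1 u₁ ^ 5 ∧ W'.Δ ≠ 0 ∧ W'.IsSemistableModel ∧
          ∃ C : VariableChange ℚ,
            C • (W'.map (Int.castRingHom ℚ)) =
              curveInf ((hOf W : ℤ) : ℚ) ((sOf W : ℤ) : ℚ) ((u₁ : ℤ) : ℚ)

/-- **Block K4**: the `5`-torsion of the base curve embeds `G_ℚ`-equivariantly into the `5`-torsion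
of every nonsingular rational fibre of the chart `curveInf`. -/
def ThetaStatement : Prop :=
  ∀ (h s u₁ : ℚ), s ^ 2 + h ^ 3 ≠ 0 → dlH h s 1 u₁ ≠ 0 →
    ∃ θ : Pts (base h s) → Pts (curveInf h s u₁),
      IsTorsionEmbedding 5 (base h s) (curveInf h s u₁) θ

/-- **Block K7**: a prime `r ≡ 4 mod 15` outside any given finite set, with a rational point of
order `5` on the base curve modulo `r`. -/
def RedFiveStatement : Prop :=
  ∀ (W : WeierstrassCurve ℤ), W.Δ ≠ 0 → W.IsSemistableModel → ∀ S₀ : Finset ℕ,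
    ∃ (r : ℕ) (_ : Fact r.Prime), r ∉ S₀ ∧ r % 3 = 1 ∧ r % 5 = 4 ∧
      ∃ R : (base ((hOf W : ℤ) : ZMod r) ((sOf W : ℤ) : ZMod r)).toAffine.Point,
        R ≠ 0 ∧ 5 • R = 0

/-- **Block K6**: over `ZMod r`, `r ≡ 4 mod 5`, a point of order `5` on the base curve produces a
rational cusp `ū₀` of the family at which `-c₄c₆` is a non-square. -/
def Cusp5Statement : Prop :=
  ∀ (r : ℕ) [Fact r.Prime], r % 5 = 4 → ¬ r ∣ 6 → ∀ hb sb : ZMod r, sb ^ 2 + hb ^ 3 ≠ 0 →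
    ∀ R : (base hb sb).toAffine.Point, R ≠ 0 → 5 • R = 0 →
      ∃ ub : ZMod r, dlH hb sb 1 ub = 0 ∧
        ¬ IsSquare (-(3 * (HpH hb sb 1 ub * TpH hb sb 1 ub)))

/-- transfer of a torsion embedding along changes of variables. -/
theorem isTorsionEmbedding_transfer (p : ℕ) (E₁ E₂ B₁ B₂ : WeierstrassCurve ℚ)
    (C₁ C₂ : VariableChange ℚ) (h₁ : C₁ • E₁ = B₁) (h₂ : C₂ • E₂ = B₂)
    (θ : Pts B₁ → Pts B₂) (hθ : IsTorsionEmbedding p B₁ B₂ θ) :
    ∃ θ' : Pts E₁ → Pts E₂, IsTorsionEmbedding p E₁ E₂ θ' := by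
  subst h₁ h₂
  set e₁ : Pts (C₁ • E₁) ≃+ Pts E₁ :=
    Fermat.Agent.S51lib.vcEquivBaseChange (K := Qb) (E₁ : Affine ℚ) C₁ with he₁
  set e₂ : Pts (C₂ • E₂) ≃+ Pts E₂ :=
    Fermat.Agent.S51lib.vcEquivBaseChange (K := Qb) (E₂ : Affine ℚ) C₂ with he₂
  have hs₁ : ∀ (σ : GQ) (P : Pts (C₁ • E₁)), e₁ (σ • P) = σ • e₁ P :=
    Fermat.Agent.S51lib.vcEquivBaseChange_smul (K := Qb) (E₁ : Affine ℚ) C₁
  have hs₂ : ∀ (σ : GQ) (P : Pts (C₂ • E₂)), e₂ (σ • P) = σ • e₂ P :=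
    Fermat.Agent.S51lib.vcEquivBaseChange_smul (K := Qb) (E₂ : Affine ℚ) C₂
  have hs₁' : ∀ (σ : GQ) (P : Pts E₁), e₁.symm (σ • P) = σ • e₁.symm P := by
    intro σ P
    apply e₁.injective
    rw [AddEquiv.apply_symm_apply, hs₁, AddEquiv.apply_symm_apply]
  have htor : ∀ x : Pts E₁, p • x = 0 → p • e₁.symm x = 0 := by
    intro x hx
    rw [← map_nsmul, hx, _root_.map_zero]
  obtain ⟨hadd, htors, hinj, heq⟩ := hθ
  refine ⟨fun x => e₂ (θ (e₁.symm x)), ?_, ?_, ?_, ?_⟩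
  · intro x y hx hy
    show e₂ (θ (e₁.symm (x + y))) = e₂ (θ (e₁.symm x)) + e₂ (θ (e₁.symm y))
    rw [map_add, hadd _ _ (htor x hx) (htor y hy), map_add]
  · intro x hx
    show p • e₂ (θ (e₁.symm x)) = 0
    rw [← map_nsmul, htors _ (htor x hx), _root_.map_zero]
  · intro x hx h0
    have h1 : θ (e₁.symm x) = 0 := by
      apply e₂.injective
      rw [_root_.map_zero]
      exact h0
    have h2 := hinj _ (htor x hx) h1
    have h3 := congrArg e₁ h2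
    rwa [AddEquiv.apply_symm_apply, _root_.map_zero] at h3
  · intro σ x hx
    show e₂ (θ (e₁.symm (σ • x))) = σ • e₂ (θ (e₁.symm x))
    rw [hs₁', heq σ _ (htor x hx), hs₂]

/-- CRT: an integer divisible by `M₀` with prescribed residue modulo a prime `r ∤ M₀`. -/
lemma exists_int_dvd_cast_eq {M₀ : ℤ} {r : ℕ} [hr : Fact r.Prime] (hrM : ¬ (r : ℤ) ∣ M₀)
    (ub : ZMod r) : ∃ u₁ : ℤ, M₀ ∣ u₁ ∧ ((u₁ : ℤ) : ZMod r) = ub := by
  have hM : ((M₀ : ℤ) : ZMod r) ≠ 0 := by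
    intro h
    exact hrM ((ZMod.intCast_zmod_eq_zero_iff_dvd M₀ r).mp h)
  obtain ⟨k, hk⟩ := ZMod.intCast_surjective (ub * ((M₀ : ℤ) : ZMod r)⁻¹)
  refine ⟨M₀ * k, dvd_mul_right _ _, ?_⟩
  rw [Int.cast_mul, hk, mul_comm ub, ← mul_assoc, mul_inv_cancel₀ hM, one_mul]

/-- **The 3–5 switch from the block statements.** -/
theorem s52_of_pieces (hM : ModelStatement) (hT : ThetaStatement) (hR : RedFiveStatement)
    (hC : Cusp5Statement) (hQ : Irr3.QuadCharThree)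
    (W : WeierstrassCurve ℤ) (hΔ : W.Δ ≠ 0) (hW : W.IsSemistableModel)
    (_h5 : W.ModRepIsIrreducible 5) :
    ∃ W' : WeierstrassCurve ℤ, W'.Δ ≠ 0 ∧ W'.IsSemistableModel ∧ W'.ModRepIsIrreducible 3 ∧
      ∀ ℓ : ℕ, ℓ.Prime → W.IsGoodPrimeFor ℓ → W'.IsGoodPrimeFor ℓ → ℓ ≠ 5 →
        (5 : ℤ) ∣ (W'.apOfModel ℓ - W.apOfModel ℓ) := by
  by_cases h3 : W.ModRepIsIrreducible 3
  · exact ⟨W, hΔ, hW, h3, fun ℓ _ _ _ _ => by rw [sub_self]; exact dvd_zero _⟩
  obtain ⟨M₀, hM₀, h6M, ⟨C₀, hC₀⟩, hmodel⟩ := hM W hΔ hW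
  -- the auxiliary prime
  obtain ⟨r, hrF, hrS, hr3, hr5, R, hR0, hR5⟩ := hR W hΔ hW M₀.natAbs.primeFactors
  have hr : r.Prime := hrF.out
  have hrM : ¬ (r : ℤ) ∣ M₀ := by
    intro h
    apply hrS
    rw [Nat.mem_primeFactors]
    exact ⟨hr, Int.natCast_dvd.mp h, by simpa using hM₀⟩
  have hr6Δ : ¬ (r : ℤ) ∣ 6 * W.Δ := fun h => hrM (h.trans h6M)
  have hr6 : ¬ r ∣ 6 := by
    intro h
    apply hr6Δ
    have : (r : ℤ) ∣ 6 := by exact_mod_cast h
    exact this.mul_right _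
  have hrΔ : ¬ (r : ℤ) ∣ W.Δ := fun h => hr6Δ (h.mul_left _)
  have hr3' : ¬ r ∣ 3 := fun h => hr6 (h.trans (by norm_num))
  have hr2' : ¬ r ∣ 2 := fun h => hr6 (h.trans (by norm_num))
  -- the discriminant of the base curve modulo `r`
  have hDr : ((sOf W : ℤ) : ZMod r) ^ 2 + ((hOf W : ℤ) : ZMod r) ^ 3 ≠ 0 := by
    have h1 : ((sOf W : ℤ) : ZMod r) ^ 2 + ((hOf W : ℤ) : ZMod r) ^ 3 =
        ((-(729 * 1728) * W.Δ : ℤ) : ZMod r) := by
      rw [← sOf_sq_add_hOf_cube W]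
      push_cast
      ring
    rw [h1, Ne, ZMod.intCast_zmod_eq_zero_iff_dvd]
    intro h
    have hp : Prime (r : ℤ) := Nat.prime_iff_prime_int.mp hr
    rcases hp.dvd_or_dvd h with h' | h'
    · have h'' : (r : ℤ) ∣ 729 * 1728 := (dvd_neg).mp h'
      have h''' : r ∣ 729 * 1728 := by exact_mod_cast h''
      have e : 729 * 1728 = 2 ^ 6 * 3 ^ 9 := by norm_num
      rw [e] at h'''
      rcases (Nat.Prime.dvd_mul hr).mp h''' with h4 | h4
      · exact hr2' (hr.dvd_of_dvd_pow h4)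
      · exact hr3' (hr.dvd_of_dvd_pow h4)
    · exact hrΔ h'
  -- the rational cusp and the CRT choice of `u₁`
  obtain ⟨ub, hdl0, hnsq⟩ := hC r hr5 hr6 _ _ hDr R hR0 hR5
  obtain ⟨u₁, hMu, hu₁⟩ := exists_int_dvd_cast_eq hrM ub
  obtain ⟨W', hc4, hc6, hΔeq, hΔ', hss', C, hCeq⟩ := hmodel u₁ hMu
  -- reduction of the invariants modulo `r`
  have hcast_dl : ((dlH (hOf W) (sOf W) 1 u₁ : ℤ) : ZMod r) = 0 := by
    have := map_dlH (Int.castRingHom (ZMod r)) (hOf W) (sOf W) 1 u₁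
    simp only [eq_intCast, Int.cast_one] at this
    rw [this, hu₁]
    exact hdl0
  have hrdl : (r : ℤ) ∣ dlH (hOf W) (sOf W) 1 u₁ :=
    (ZMod.intCast_zmod_eq_zero_iff_dvd _ r).mp hcast_dl
  have hcast_H : ((HpH (hOf W) (sOf W) 1 u₁ : ℤ) : ZMod r) =
      HpH ((hOf W : ℤ) : ZMod r) ((sOf W : ℤ) : ZMod r) 1 ub := by
    have := map_HpH (Int.castRingHom (ZMod r)) (hOf W) (sOf W) 1 u₁
    simp only [eq_intCast, Int.cast_one] at this
    rw [this, hu₁]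
  have hcast_T : ((TpH (hOf W) (sOf W) 1 u₁ : ℤ) : ZMod r) =
      TpH ((hOf W : ℤ) : ZMod r) ((sOf W : ℤ) : ZMod r) 1 ub := by
    have := map_TpH (Int.castRingHom (ZMod r)) (hOf W) (sOf W) 1 u₁
    simp only [eq_intCast, Int.cast_one] at this
    rw [this, hu₁]
  refine ⟨W', hΔ', hss', ?_, ?_⟩
  · apply Irr3.modRepIsIrreducible_three_of_nonsplit W' hΔ' hQ hss' hr hr3
    · rw [hΔeq]
      exact dvd_mul_of_dvd_right (dvd_pow hrdl (by norm_num)) _
    · rintro ⟨x, hx⟩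
      apply hnsq
      refine ⟨27 * x, ?_⟩
      have h9 : (9 : ZMod r) * ((W'.c₄ : ℤ) : ZMod r) =
          -HpH ((hOf W : ℤ) : ZMod r) ((sOf W : ℤ) : ZMod r) 1 ub := by
        rw [← hcast_H]
        have := congrArg (fun z : ℤ => (z : ZMod r)) hc4
        simpa using this
      have h27 : (27 : ZMod r) * ((W'.c₆ : ℤ) : ZMod r) =
          -TpH ((hOf W : ℤ) : ZMod r) ((sOf W : ℤ) : ZMod r) 1 ub := by
        rw [← hcast_T]
        have := congrArg (fun z : ℤ => (z : ZMod r)) hc6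
        simpa using this
      have hx' : -(((W'.c₄ : ℤ) : ZMod r) * ((W'.c₆ : ℤ) : ZMod r)) = x * x := by
        rw [← hx]
        push_cast
        ring
      have hH : HpH ((hOf W : ℤ) : ZMod r) ((sOf W : ℤ) : ZMod r) 1 ub =
          -(9 * ((W'.c₄ : ℤ) : ZMod r)) := by rw [h9]; ring
      have hT : TpH ((hOf W : ℤ) : ZMod r) ((sOf W : ℤ) : ZMod r) 1 ub =
          -(27 * ((W'.c₆ : ℤ) : ZMod r)) := by rw [h27]; ring
      rw [hH, hT]
      linear_combination (729 : ZMod r) * hx'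
  · intro ℓ hℓ hg hg' hℓ5
    have hD : ((sOf W : ℤ) : ℚ) ^ 2 + ((hOf W : ℤ) : ℚ) ^ 3 ≠ 0 := by
      have h1 : ((sOf W : ℤ) : ℚ) ^ 2 + ((hOf W : ℤ) : ℚ) ^ 3 = ((-(729 * 1728) * W.Δ : ℤ) : ℚ) := by
        rw [← sOf_sq_add_hOf_cube W]
        push_cast
        ring
      rw [h1]
      have : (-(729 * 1728) * W.Δ : ℤ) ≠ 0 := mul_ne_zero (by norm_num) hΔ
      exact_mod_cast this
    have hdlQ : dlH ((hOf W : ℤ) : ℚ) ((sOf W : ℤ) : ℚ) 1 ((u₁ : ℤ) : ℚ) ≠ 0 := by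
      have := map_dlH (Int.castRingHom ℚ) (hOf W) (sOf W) 1 u₁
      simp only [eq_intCast, Int.cast_one] at this
      rw [← this]
      intro h0
      have h0' : dlH (hOf W) (sOf W) 1 u₁ = 0 := by exact_mod_cast h0
      apply hΔ'
      rw [hΔeq, h0']
      ring
    obtain ⟨θ, hθ⟩ := hT _ _ _ hD hdlQ
    obtain ⟨θ', hadd, htors, hinj, heq⟩ := isTorsionEmbedding_transfer 5 (WQ' W) (WQ' W') _ _
      C₀ C hC₀ hCeq θ hθ
    haveI : Fact (Nat.Prime 5) := ⟨by norm_num⟩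
    exact Fermat.Agent.S52lib.Cong.apOfModel_sub_dvd_of_pointMap 5 W W' hΔ hΔ' θ' hadd htors hinj
      heq hℓ hℓ5 hg hg'

end Fermat.Agent.S52lib
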