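/-
S52 library (helper4): discharge of the block statements of `S52lib/Main.lean` from the owners'
theorems.

* `model : ModelStatement` from helper6's `Semi.exists_model_inf` + `Semi.exists_base_vc`;
* `quadChar : Irr3.QuadCharThree` = helper5's `QuadChar.quadCharThree`.
-/
import Mathlib
import Fermat.Agent.S52lib.Main
import Fermat.Agent.S52lib.Semi.Statement
import Fermat.Agent.S52lib.QuadChar.Irr3Final

set_option autoImplicit false

noncomputable section

namespace Fermat.Agent.S52lib

open WeierstrassCurve Fermat.Agent.S52lib.Fam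

/-- **Block K5** from helper6's `Semi`. -/
theorem model : ModelStatement := by
  intro W hΔ hss
  refine ⟨Semi.modulus W, ?_, ?_, ?_, ?_⟩
  · unfold Semi.modulus
    exact mul_ne_zero (by norm_num) hΔ
  · unfold Semi.modulus
    exact ⟨288 * 5 * 127, by ring⟩
  · obtain ⟨C₀, hC₀⟩ := Semi.exists_base_vc W
    refine ⟨C₀, ?_⟩
    rw [hC₀]
    unfold hOf sOf
    push_cast
    rfl
  · intro u₁ hu
    obtain ⟨W', h4, h6, hD, hD0, hss', C, hC⟩ := Semi.exists_model_inf hΔ hss u₁ hu
    refine ⟨W', h4, h6, hD, hD0, hss', C, ?_⟩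
    rw [hC]
    unfold hOf sOf
    push_cast
    rfl

/-- **Block K8** = helper5's `QuadChar.quadCharThree`. -/
theorem quadChar : Irr3.QuadCharThree := QuadChar.quadCharThree

end Fermat.Agent.S52lib
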